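import Mathlib

/-!
# Row LT, tower CFT (helper701, OFF-MAIN): ARTIN–SCHREIER for `ℚ̄`

An element of order two of `Gal(ℚ̄/ℚ)` is a "complex conjugation": its fixed field `L` is an
ordered field (positive = nonzero square), archimedean because `L/ℚ` is algebraic, so it embeds
in `ℝ`.  Consequence (`eq_one_of_mul_self_of_totallyComplex701`): if `K` is a totally complex
number field embedded in `ℚ̄` by `j`, the group `Gal(ℚ̄/j K)` has no element of order two.

Mathlib only.  Reference: Artin–Schreier (Lang, Algebra, VI §9 Cor. 9.3 + XI §2).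
-/

set_option autoImplicit false

noncomputable section

namespace Fermat.Agent.LT.CFT.H701

open Polynomial

/-! ## 1. The fixed field of an involution of an algebraically closed field -/

section Invol

variable {C : Type*} [Field C]

/-- The fixed field of a ring automorphism. -/
def fixSub701 (c : C ≃+* C) : Subfield C where
  carrier := {x | c x = x}
  mul_mem' := by
    intro a b ha hb
    change c a = a at ha
    change c b = b at hb
    change c (a * b) = a * b
    rw [map_mul, ha, hb]
  one_mem' := map_one c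
  add_mem' := by
    intro a b ha hb
    change c a = a at ha
    change c b = b at hb
    change c (a + b) = a + b
    rw [map_add, ha, hb]
  zero_mem' := map_zero c
  neg_mem' := by
    intro a ha
    change c a = a at ha
    change c (-a) = -a
    rw [map_neg, ha]
  inv_mem' := by
    intro a ha
    change c a = a at ha
    change c a⁻¹ = a⁻¹
    rw [map_inv₀, ha]

theorem mem_fixSub701 (c : C ≃+* C) (x : C) : x ∈ fixSub701 c ↔ c x = x := Iff.rfl

variable [IsAlgClosed C]

/-- In characteristic `≠ 2`, an involution `c ≠ 1` of an algebraically closed field moves the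
square roots of `-1`. -/
theorem exists_sqrt_neg_one701 (h2 : (2 : C) ≠ 0) (c : C ≃+* C) (hcc : ∀ x, c (c x) = x)
    (hne : ∃ y, c y ≠ y) : ∃ i : C, i * i = -1 ∧ c i = -i := by
  obtain ⟨i, hi⟩ := IsAlgClosed.exists_eq_mul_self (-1 : C)
  have hi' : i * i = -1 := hi.symm
  refine ⟨i, hi', ?_⟩
  have hci : c i * c i = -1 := by rw [← map_mul, hi', map_neg, map_one]
  have hprod : (c i - i) * (c i + i) = 0 := by
    have : (c i - i) * (c i + i) = c i * c i - i * i := by ring
    rw [this, hci, hi', sub_self]
  rcases mul_eq_zero.mp hprod with h | h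
  · exfalso
    have hcii : c i = i := sub_eq_zero.mp h
    obtain ⟨y, hy⟩ := hne
    set j : C := y - c y with hj
    have hj0 : j ≠ 0 := fun h0 => hy (sub_eq_zero.mp h0).symm
    have hcj : c j = -j := by
      rw [hj, map_sub, hcc]; ring
    obtain ⟨b, hb⟩ := IsAlgClosed.exists_eq_mul_self j
    set N : C := b * c b with hN
    have hcN : c N = N := by rw [hN, map_mul, hcc]; ring
    have hNN : N * N = -(j * j) := by
      have h1 : N * N = (b * b) * (c b * c b) := by rw [hN]; ring
      have h2' : c b * c b = c j := by rw [← map_mul, ← hb]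
      rw [h1, ← hb, h2', hcj]; ring
    have hsq : (i * N - j) * (i * N + j) = 0 := by
      have : (i * N - j) * (i * N + j) = (i * i) * (N * N) - j * j := by ring
      rw [this, hi', hNN]; ring
    have hcin : c (i * N) = i * N := by rw [map_mul, hcii, hcN]
    have hjfix : c j = j := by
      rcases mul_eq_zero.mp hsq with h' | h'
      · have : j = i * N := (sub_eq_zero.mp h').symm
        rw [this, hcin]
      · have : j = -(i * N) := by
          have := eq_neg_of_add_eq_zero_right h'
          exact this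
        rw [this, map_neg, hcin]
    have : (2 : C) * j = 0 := by
      have h3 : j = -j := hjfix.symm.trans hcj
      have : j + j = 0 := by
        nth_rewrite 2 [h3]
        ring
      rw [two_mul]; exact this
    rcases mul_eq_zero.mp this with h' | h'
    · exact h2 h'
    · exact hj0 h'
  · exact eq_neg_of_add_eq_zero_left h

variable (c : C ≃+* C) (hcc : ∀ x, c (c x) = x) (i : C) (hi : i * i = -1) (hci : c i = -i)

include hi hci in
/-- Every element of the fixed field is a square or minus a square. -/
theorem sq_or_neg_sq701 (x : fixSub701 c) :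
    (∃ t : fixSub701 c, x = t * t) ∨ (∃ t : fixSub701 c, -x = t * t) := by
  obtain ⟨w, hw⟩ := IsAlgClosed.exists_eq_mul_self (x : C)
  have hx : c (x : C) = x := x.2
  have hcw : c w * c w = w * w := by rw [← map_mul, ← hw, hx]
  have hprod : (c w - w) * (c w + w) = 0 := by
    have : (c w - w) * (c w + w) = c w * c w - w * w := by ring
    rw [this, hcw, sub_self]
  rcases mul_eq_zero.mp hprod with h | h
  · left
    refine ⟨⟨w, sub_eq_zero.mp h⟩, ?_⟩
    apply Subtype.ext
    simpa using hw
  · right
    have hcw' : c w = -w := eq_neg_of_add_eq_zero_left h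
    refine ⟨⟨w * i, ?_⟩, ?_⟩
    · show c (w * i) = w * i
      rw [map_mul, hcw', hci]; ring
    · apply Subtype.ext
      show -(x : C) = (w * i) * (w * i)
      have : (w * i) * (w * i) = (w * w) * (i * i) := by ring
      rw [this, hi, ← hw]; ring

include hcc hi hci in
/-- In the fixed field a sum of two squares is a square. -/
theorem add_sq_eq_sq701 (u v : fixSub701 c) :
    ∃ r : fixSub701 c, u * u + v * v = r * r := by
  obtain ⟨w, hw⟩ := IsAlgClosed.exists_eq_mul_self ((u : C) + v * i)
  have hu : c (u : C) = u := u.2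
  have hv : c (v : C) = v := v.2
  refine ⟨⟨w * c w, ?_⟩, ?_⟩
  · show c (w * c w) = w * c w
    rw [map_mul, hcc]; ring
  · apply Subtype.ext
    show (u : C) * u + v * v = (w * c w) * (w * c w)
    have h1 : (w * c w) * (w * c w) = (w * w) * (c w * c w) := by ring
    have h2 : c w * c w = (u : C) - v * i := by
      rw [← map_mul, ← hw, map_add, map_mul, hu, hv, hci]; ring
    rw [h1, ← hw, h2]
    have : ((u : C) + v * i) * (u - v * i) = u * u - (v * v) * (i * i) := by ring
    rw [this, hi]; ring

omit [IsAlgClosed C] in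
include hi hci in
/-- `-1` is not a square in the fixed field. -/
theorem sq_ne_neg_one701 (h2 : (2 : C) ≠ 0) (t : fixSub701 c) : t * t ≠ -1 := by
  intro h
  have ht : c (t : C) = t := t.2
  have h' : (t : C) * t = -1 := by
    have := congrArg (fun z : fixSub701 c => (z : C)) h
    simpa using this
  have hprod : ((t : C) - i) * (t + i) = 0 := by
    have : ((t : C) - i) * (t + i) = t * t - i * i := by ring
    rw [this, h', hi, sub_self]
  have hi0 : i ≠ 0 := by
    intro h0
    rw [h0, mul_zero] at hi
    have : (1 : C) = 0 := by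
      have := congrArg (fun z => -z) hi
      simpa using this.symm
    exact one_ne_zero this
  have hifix : c i = i := by
    rcases mul_eq_zero.mp hprod with h1 | h1
    · have : i = t := (sub_eq_zero.mp h1).symm
      rw [this, ht]
    · have : i = -t := (eq_neg_of_add_eq_zero_right h1)
      rw [this, map_neg, ht]
  have : (2 : C) * i = 0 := by
    have h3 : i = -i := hifix.symm.trans hci
    have : i + i = 0 := by
      nth_rewrite 2 [h3]
      ring
    rw [two_mul]; exact this
  rcases mul_eq_zero.mp this with h1 | h1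
  · exact h2 h1
  · exact hi0 h1

end Invol

/-! ## 2. The order of the fixed field -/

section Order

variable {C : Type*} [Field C] [IsAlgClosed C]
variable (c : C ≃+* C) (hcc : ∀ x, c (c x) = x) (i : C) (hi : i * i = -1) (hci : c i = -i)
  (h2 : (2 : C) ≠ 0)

/-- The squares of the fixed field of an involution form a positive cone. -/
def sqCone701 : RingCone (fixSub701 c) where
  carrier := {x | ∃ t : fixSub701 c, x = t * t}
  mul_mem' := by
    rintro a b ⟨s, rfl⟩ ⟨t, rfl⟩
    exact ⟨s * t, by ring⟩
  one_mem' := ⟨1, by simp⟩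
  add_mem' := by
    rintro a b ⟨s, rfl⟩ ⟨t, rfl⟩
    exact add_sq_eq_sq701 c hcc i hi hci s t
  zero_mem' := ⟨0, by simp⟩
  eq_zero_of_mem_of_neg_mem' := by
    rintro a ⟨s, hs⟩ ⟨t, ht⟩
    by_contra ha
    have hs0 : s ≠ 0 := by
      rintro rfl
      exact ha (by simpa using hs)
    apply sq_ne_neg_one701 c i hi hci h2 (t / s)
    have : (t / s) * (t / s) = (t * t) / (s * s) := by
      field_simp
    rw [this, ← ht, ← hs]
    field_simp

theorem mem_sqCone701 (x : fixSub701 c) :
    x ∈ sqCone701 c hcc i hi hci h2 ↔ ∃ t : fixSub701 c, x = t * t := Iff.rfl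

instance hasMemOrNegMem_sqCone701 : HasMemOrNegMem (sqCone701 c hcc i hi hci h2) where
  mem_or_neg_mem := fun a => sq_or_neg_sq701 c i hi hci a

end Order

/-! ## 3. An ordered field which is algebraic over `ℚ` is archimedean -/

section Arch

variable {F : Type*} [Field F] [LinearOrder F] [IsStrictOrderedRing F]

theorem le_nat_of_root701 (x : F) (p : ℚ[X]) (hp : p.Monic)
    (hx : eval₂ (Rat.castHom F) x p = 0) : ∃ n : ℕ, x ≤ n := by
  set d := p.natDegree with hd
  set B : ℚ := ∑ k ∈ Finset.range d, |p.coeff k| with hB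
  have hB0 : 0 ≤ B := Finset.sum_nonneg fun k _ => abs_nonneg _
  obtain ⟨m, hm⟩ := exists_nat_ge B
  refine ⟨m + 1, ?_⟩
  by_contra hlt
  have hlt' : ((m + 1 : ℕ) : F) < x := not_le.mp hlt
  have hx1 : (1 : F) ≤ x := by
    have : (1 : F) ≤ ((m + 1 : ℕ) : F) := by
      have : (1 : ℕ) ≤ m + 1 := Nat.le_add_left 1 m
      exact_mod_cast this
    exact this.trans hlt'.le
  have hx0 : (0 : F) < x := lt_of_lt_of_le one_pos hx1
  have hBx : (B : F) < x := by
    have h1 : (B : F) ≤ ((m : ℚ) : F) := by exact_mod_cast hm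
    have h2 : ((m : ℚ) : F) ≤ ((m + 1 : ℕ) : F) := by
      have : (m : ℚ) ≤ ((m + 1 : ℕ) : ℚ) := by push_cast; linarith
      have h3 : ((m : ℚ) : F) ≤ (((m + 1 : ℕ) : ℚ) : F) := by exact_mod_cast this
      exact h3.trans (le_of_eq (Rat.cast_natCast (m + 1)))
    exact (h1.trans h2).trans_lt hlt'
  -- expand the polynomial
  have hsum : eval₂ (Rat.castHom F) x p
      = ∑ k ∈ Finset.range (d + 1), ((p.coeff k : ℚ) : F) * x ^ k := by
    rw [eval₂_eq_sum_range]
    rfl
  rw [hsum, Finset.sum_range_succ] at hx
  have hlead : p.coeff d = 1 := hp.coeff_natDegree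
  rw [hlead, Rat.cast_one, one_mul] at hx
  rcases Nat.eq_zero_or_pos d with h0 | hpos
  · rw [h0] at hx
    simp at hx
  · -- x ^ d = - ∑ ...
    have hxd : x ^ d = - ∑ k ∈ Finset.range d, ((p.coeff k : ℚ) : F) * x ^ k := by
      have := eq_neg_of_add_eq_zero_right hx
      exact this
    have hbound : - ∑ k ∈ Finset.range d, ((p.coeff k : ℚ) : F) * x ^ k
        ≤ (B : F) * x ^ (d - 1) := by
      rw [← Finset.sum_neg_distrib, hB, Rat.cast_sum, Finset.sum_mul]
      apply Finset.sum_le_sum
      intro k hk
      have hk' : k ≤ d - 1 := Nat.le_sub_one_of_lt (Finset.mem_range.mp hk)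
      have hpow : x ^ k ≤ x ^ (d - 1) := pow_le_pow_right₀ hx1 hk'
      have habs : -((p.coeff k : ℚ) : F) ≤ ((|p.coeff k| : ℚ) : F) := by
        have : -(p.coeff k) ≤ |p.coeff k| := neg_le_abs _
        exact_mod_cast this
      have hnn : (0 : F) ≤ ((|p.coeff k| : ℚ) : F) := by
        have : (0 : ℚ) ≤ |p.coeff k| := abs_nonneg _
        exact_mod_cast this
      calc -(((p.coeff k : ℚ) : F) * x ^ k) = (-((p.coeff k : ℚ) : F)) * x ^ k := by ring
        _ ≤ ((|p.coeff k| : ℚ) : F) * x ^ k :=
            mul_le_mul_of_nonneg_right habs (pow_nonneg hx0.le k)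
        _ ≤ ((|p.coeff k| : ℚ) : F) * x ^ (d - 1) :=
            mul_le_mul_of_nonneg_left hpow hnn
    have hlt2 : (B : F) * x ^ (d - 1) < x ^ d := by
      have hpp : (0 : F) < x ^ (d - 1) := pow_pos hx0 _
      have : x ^ d = x * x ^ (d - 1) := by
        rw [← pow_succ']
        congr 1
        omega
      rw [this]
      exact mul_lt_mul_of_pos_right hBx hpp
    have : x ^ d < x ^ d := by
      calc x ^ d = - ∑ k ∈ Finset.range d, ((p.coeff k : ℚ) : F) * x ^ k := hxd
        _ ≤ (B : F) * x ^ (d - 1) := hbound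
        _ < x ^ d := hlt2
    exact lt_irrefl _ this

theorem archimedean_of_roots701
    (h : ∀ x : F, ∃ p : ℚ[X], p.Monic ∧ eval₂ (Rat.castHom F) x p = 0) : Archimedean F := by
  rw [archimedean_iff_nat_le]
  intro x
  obtain ⟨p, hp, hx⟩ := h x
  exact le_nat_of_root701 x p hp hx

end Arch

/-! ## 4. The real embedding of the fixed field -/

section Real

variable {C : Type*} [Field C] [IsAlgClosed C] [CharZero C]

/-- **Artin–Schreier**, embedding form: the fixed field of an involution `c ≠ 1` of an
algebraically closed field `C`, algebraic over `ℚ`, embeds in `ℝ`. -/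
theorem exists_ringHom_real701
    (hint : ∀ x : C, ∃ p : ℚ[X], p.Monic ∧ eval₂ (Rat.castHom C) x p = 0) (c : C ≃+* C)
    (hcc : ∀ x, c (c x) = x) (hne : ∃ y, c y ≠ y) :
    Nonempty (fixSub701 c →+* ℝ) := by
  classical
  have h2 : (2 : C) ≠ 0 := two_ne_zero
  obtain ⟨i, hi, hci⟩ := exists_sqrt_neg_one701 h2 c hcc hne
  let _ : LinearOrder (fixSub701 c) := LinearOrder.mkOfAddGroupCone (sqCone701 c hcc i hi hci h2)
  have _ : IsOrderedRing (fixSub701 c) := IsOrderedRing.mkOfCone (sqCone701 c hcc i hi hci h2)
  have _ : IsStrictOrderedRing (fixSub701 c) := IsOrderedRing.toIsStrictOrderedRing _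
  have _ : Archimedean (fixSub701 c) := by
    apply archimedean_of_roots701
    intro x
    obtain ⟨p, hp, hpx⟩ := hint (x : C)
    refine ⟨p, hp, ?_⟩
    have hinj : Function.Injective (fixSub701 c).subtype := Subtype.val_injective
    apply hinj
    rw [map_zero, Polynomial.hom_eval₂]
    have hhom : (fixSub701 c).subtype.comp (Rat.castHom (fixSub701 c)) = Rat.castHom C :=
      Subsingleton.elim _ _
    rw [hhom]
    exact hpx
  exact ⟨(ConditionallyCompleteLinearOrderedField.inducedOrderRingHom (fixSub701 c) ℝ).toRingHom⟩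

end Real

/-! ## 5. Totally complex number fields -/

section NF

open NumberField

local notation "Qb" => AlgebraicClosure ℚ

/-- A number field `K` embedded in `ℚ̄` by `j` and fixed by an element `c ≠ 1` with `c * c = 1` of
`Gal(ℚ̄/ℚ)` has a real place. -/
theorem exists_isReal_of_involution701 (K : Type*) [Field K] [NumberField K] (j : K →+* Qb)
    (c : Qb ≃ₐ[ℚ] Qb) (hc : ∀ x : K, c (j x) = j x) (h2 : c * c = 1) (hne : c ≠ 1) :
    ∃ w : InfinitePlace K, w.IsReal := by
  have hcc : ∀ x, c.toRingEquiv (c.toRingEquiv x) = x := by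
    intro x
    have := congrArg (fun g : Qb ≃ₐ[ℚ] Qb => g x) h2
    simpa [AlgEquiv.mul_apply] using this
  have hmove : ∃ y, c.toRingEquiv y ≠ y := by
    by_contra hall
    refine hne (AlgEquiv.ext fun y => ?_)
    by_contra hy
    exact hall ⟨y, hy⟩
  have hint : ∀ x : Qb, ∃ p : ℚ[X], p.Monic ∧ eval₂ (Rat.castHom Qb) x p = 0 := by
    intro x
    have hx : IsIntegral ℚ x := ((AlgebraicClosure.isAlgebraic ℚ).isAlgebraic x).isIntegral
    refine ⟨minpoly ℚ x, minpoly.monic hx, ?_⟩
    have hhom : Rat.castHom Qb = algebraMap ℚ Qb := Subsingleton.elim _ _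
    rw [hhom]
    exact minpoly.aeval ℚ x
  obtain ⟨ψ⟩ := exists_ringHom_real701 hint c.toRingEquiv hcc hmove
  let jL : K →+* fixSub701 c.toRingEquiv :=
    j.codRestrict (fixSub701 c.toRingEquiv) (fun x => hc x)
  let φ : K →+* ℂ := (algebraMap ℝ ℂ).comp (ψ.comp jL)
  have hreal : ComplexEmbedding.IsReal φ := by
    rw [ComplexEmbedding.isReal_iff]
    ext x
    show (starRingEnd ℂ) (φ x) = φ x
    show (starRingEnd ℂ) (((ψ (jL x) : ℝ)) : ℂ) = ((ψ (jL x) : ℝ) : ℂ)
    exact Complex.conj_ofReal _
  exact ⟨InfinitePlace.mk φ, InfinitePlace.isReal_mk_iff.mpr hreal⟩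

/-- **NO ELEMENT OF ORDER TWO**: if `K` is a totally complex number field embedded in `ℚ̄` by
`j`, then `Gal(ℚ̄/j K)` has no element of order two. -/
theorem eq_one_of_mul_self_of_totallyComplex701 (K : Type*) [Field K] [NumberField K]
    (j : K →+* Qb) (hK : ∀ w : InfinitePlace K, w.IsComplex)
    (c : Qb ≃ₐ[ℚ] Qb) (hc : ∀ x : K, c (j x) = j x) (h2 : c * c = 1) : c = 1 := by
  by_contra hne
  obtain ⟨w, hw⟩ := exists_isReal_of_involution701 K j c hc h2 hne
  exact (InfinitePlace.not_isReal_iff_isComplex.mpr (hK w)) hw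

end NF

end Fermat.Agent.LT.CFT.H701
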