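import Fermat.Agent.LT.CFT.Spec
import Fermat.Agent.LT.CFT.H701.ArtinSchreier

/-!
# Row LT, tower CFT (helper701, OFF-MAIN): entry adapters of the dictionary leaf

For a number field `K` embedded in `ℚ̄` by `j` (vocabulary of `LT/CFT/Spec.lean`, helper53):
* `isOpenQ_galOf701` : `galOf j` is open (`IsOpenQ` of S55 layer G);
* `noOrderTwo_galOf701` : `TotallyComplex K → NoOrderTwo (galOf j)` (Artin–Schreier).
So `RecTC2` / `CycSumC` apply to `U = galOf j`.
-/

set_option autoImplicit false

noncomputable section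

namespace Fermat.Agent.LT.CFT.H701

open NumberField Fermat.Agent.LT.CFT Fermat.Agent.S55.G.Rec

local notation "Qb" => AlgebraicClosure ℚ
local notation "GQ" => (AlgebraicClosure ℚ ≃ₐ[ℚ] AlgebraicClosure ℚ)

/-- `galOf j` is open in `G_ℚ`. -/
theorem isOpenQ_galOf701 {K : Type} [Field K] [NumberField K] (j : K →+* Qb) :
    IsOpenQ (galOf j) := by
  refine ⟨(j.toRatAlgHom).fieldRange, ?_, ?_⟩
  · exact (LinearMap.finiteDimensional_range (j.toRatAlgHom).toLinearMap :)
  · intro σ hσ x
    have hmem : j x ∈ (j.toRatAlgHom).fieldRange := ⟨x, rfl⟩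
    exact hσ ⟨j x, hmem⟩

/-- **Artin–Schreier**: the absolute Galois group of a totally complex number field has no
element of order two. -/
theorem noOrderTwo_galOf701 {K : Type} [Field K] [NumberField K] (j : K →+* Qb)
    (hK : TotallyComplex K) : NoOrderTwo (galOf j) :=
  fun c hc h2 => eq_one_of_mul_self_of_totallyComplex701 K j hK c hc h2

end Fermat.Agent.LT.CFT.H701
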