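import Fermat.Agent.LT.CFT.H701.ArtinSchreier

/-!
# Row LT, tower CFT (helper701, OFF-MAIN): involutions of `ℚ̄` and complex embeddings

* `exists_embedding_conj701` (**Artin–Schreier**, conjugation form): for `c ∈ Gal(ℚ̄/ℚ)` with
  `c * c = 1`, `c ≠ 1` there is an embedding `φ : ℚ̄ → ℂ` with `φ (c x) = conj (φ x)`.
* `exists_conj_of_embedding701` : conversely every embedding `φ : ℚ̄ → ℂ` has its complex
  conjugation `c ∈ Gal(ℚ̄/ℚ)`, `c * c = 1`, `c ≠ 1`, `φ (c x) = conj (φ x)`.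

Mathlib only.
-/

set_option autoImplicit false

noncomputable section

namespace Fermat.Agent.LT.CFT.H701

section Ext

variable {C : Type*} [Field C]

/-- The extension of `ψ : Fix(c) → ℝ` to `C = Fix(c)(i) → ℂ`, `i ↦ I`. -/
def extEmb701 (c : C ≃+* C) (hcc : ∀ x, c (c x) = x) (i : C) (hi : i * i = -1)
    (hci : c i = -i) (h2 : (2 : C) ≠ 0) (ψ : fixSub701 c →+* ℝ) : C →+* ℂ :=
  have hi0 : i ≠ 0 := by
    intro h0
    rw [h0, mul_zero] at hi
    have h1 : (1 : C) = 0 := by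
      have := congrArg (fun z => -z) hi
      simpa using this.symm
    exact one_ne_zero h1
  have hu : ∀ x : C, (x + c x) / 2 ∈ fixSub701 c := by
    intro x
    show c ((x + c x) / 2) = (x + c x) / 2
    rw [map_div₀, map_add, hcc, map_ofNat, add_comm]
  have hv : ∀ x : C, (x - c x) / (2 * i) ∈ fixSub701 c := by
    intro x
    show c ((x - c x) / (2 * i)) = (x - c x) / (2 * i)
    rw [map_div₀, map_sub, hcc, map_mul, map_ofNat, hci]
    field_simp
    ring
  { toFun := fun x => ((ψ ⟨(x + c x) / 2, hu x⟩ : ℝ) : ℂ)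
        + ((ψ ⟨(x - c x) / (2 * i), hv x⟩ : ℝ) : ℂ) * Complex.I
    map_one' := by
      have h1 : (⟨((1 : C) + c 1) / 2, hu 1⟩ : fixSub701 c) = 1 := by
        apply Subtype.ext
        show ((1 : C) + c 1) / 2 = 1
        rw [map_one]
        field_simp
        norm_num
      have h0 : (⟨((1 : C) - c 1) / (2 * i), hv 1⟩ : fixSub701 c) = 0 := by
        apply Subtype.ext
        show ((1 : C) - c 1) / (2 * i) = 0
        rw [map_one, sub_self, zero_div]
      show ((ψ ⟨((1 : C) + c 1) / 2, hu 1⟩ : ℝ) : ℂ)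
        + ((ψ ⟨((1 : C) - c 1) / (2 * i), hv 1⟩ : ℝ) : ℂ) * Complex.I = 1
      rw [h1, h0, map_one, map_zero]
      simp
    map_zero' := by
      have h1 : (⟨((0 : C) + c 0) / 2, hu 0⟩ : fixSub701 c) = 0 := by
        apply Subtype.ext
        show ((0 : C) + c 0) / 2 = 0
        rw [map_zero, add_zero, zero_div]
      have h0 : (⟨((0 : C) - c 0) / (2 * i), hv 0⟩ : fixSub701 c) = 0 := by
        apply Subtype.ext
        show ((0 : C) - c 0) / (2 * i) = 0
        rw [map_zero, sub_self, zero_div]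
      show ((ψ ⟨((0 : C) + c 0) / 2, hu 0⟩ : ℝ) : ℂ)
        + ((ψ ⟨((0 : C) - c 0) / (2 * i), hv 0⟩ : ℝ) : ℂ) * Complex.I = 0
      rw [h1, h0, map_zero]
      simp
    map_add' := by
      intro x y
      have h1 : (⟨((x + y) + c (x + y)) / 2, hu (x + y)⟩ : fixSub701 c)
          = ⟨(x + c x) / 2, hu x⟩ + ⟨(y + c y) / 2, hu y⟩ := by
        apply Subtype.ext
        show ((x + y) + c (x + y)) / 2 = (x + c x) / 2 + (y + c y) / 2
        rw [map_add]
        ring
      have h0 : (⟨((x + y) - c (x + y)) / (2 * i), hv (x + y)⟩ : fixSub701 c)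
          = ⟨(x - c x) / (2 * i), hv x⟩ + ⟨(y - c y) / (2 * i), hv y⟩ := by
        apply Subtype.ext
        show ((x + y) - c (x + y)) / (2 * i) = (x - c x) / (2 * i) + (y - c y) / (2 * i)
        rw [map_add]
        ring
      show ((ψ ⟨((x + y) + c (x + y)) / 2, hu (x + y)⟩ : ℝ) : ℂ)
        + ((ψ ⟨((x + y) - c (x + y)) / (2 * i), hv (x + y)⟩ : ℝ) : ℂ) * Complex.I
        = (((ψ ⟨(x + c x) / 2, hu x⟩ : ℝ) : ℂ)
            + ((ψ ⟨(x - c x) / (2 * i), hv x⟩ : ℝ) : ℂ) * Complex.I)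
          + (((ψ ⟨(y + c y) / 2, hu y⟩ : ℝ) : ℂ)
            + ((ψ ⟨(y - c y) / (2 * i), hv y⟩ : ℝ) : ℂ) * Complex.I)
      rw [h1, h0, map_add, map_add]
      push_cast
      ring
    map_mul' := by
      intro x y
      have h1 : (⟨((x * y) + c (x * y)) / 2, hu (x * y)⟩ : fixSub701 c)
          = ⟨(x + c x) / 2, hu x⟩ * ⟨(y + c y) / 2, hu y⟩
            - ⟨(x - c x) / (2 * i), hv x⟩ * ⟨(y - c y) / (2 * i), hv y⟩ := by
        apply Subtype.ext
        show ((x * y) + c (x * y)) / 2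
          = (x + c x) / 2 * ((y + c y) / 2) - (x - c x) / (2 * i) * ((y - c y) / (2 * i))
        rw [map_mul]
        have hii : (2 * i) * (2 * i) = -4 := by
          have : (2 * i) * (2 * i) = 4 * (i * i) := by ring
          rw [this, hi]
          ring
        have h4 : (4 : C) ≠ 0 := by
          have : (4 : C) = 2 * 2 := by norm_num
          rw [this]
          exact mul_ne_zero h2 h2
        rw [div_mul_div_comm, div_mul_div_comm, hii]
        field_simp
        ring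
      have h0 : (⟨((x * y) - c (x * y)) / (2 * i), hv (x * y)⟩ : fixSub701 c)
          = ⟨(x + c x) / 2, hu x⟩ * ⟨(y - c y) / (2 * i), hv y⟩
            + ⟨(x - c x) / (2 * i), hv x⟩ * ⟨(y + c y) / 2, hu y⟩ := by
        apply Subtype.ext
        show ((x * y) - c (x * y)) / (2 * i)
          = (x + c x) / 2 * ((y - c y) / (2 * i)) + (x - c x) / (2 * i) * ((y + c y) / 2)
        rw [map_mul]
        field_simp
        ring
      show ((ψ ⟨((x * y) + c (x * y)) / 2, hu (x * y)⟩ : ℝ) : ℂ)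
        + ((ψ ⟨((x * y) - c (x * y)) / (2 * i), hv (x * y)⟩ : ℝ) : ℂ) * Complex.I
        = (((ψ ⟨(x + c x) / 2, hu x⟩ : ℝ) : ℂ)
            + ((ψ ⟨(x - c x) / (2 * i), hv x⟩ : ℝ) : ℂ) * Complex.I)
          * (((ψ ⟨(y + c y) / 2, hu y⟩ : ℝ) : ℂ)
            + ((ψ ⟨(y - c y) / (2 * i), hv y⟩ : ℝ) : ℂ) * Complex.I)
      rw [h1, h0, map_sub, map_add, map_mul, map_mul, map_mul, map_mul]
      push_cast
      ring_nf
      rw [Complex.I_sq]
      ring }

theorem extEmb701_apply (c : C ≃+* C) (hcc : ∀ x, c (c x) = x) (i : C) (hi : i * i = -1)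
    (hci : c i = -i) (h2 : (2 : C) ≠ 0) (ψ : fixSub701 c →+* ℝ) (x : C)
    (hu : (x + c x) / 2 ∈ fixSub701 c) (hv : (x - c x) / (2 * i) ∈ fixSub701 c) :
    extEmb701 c hcc i hi hci h2 ψ x
      = ((ψ ⟨(x + c x) / 2, hu⟩ : ℝ) : ℂ) + ((ψ ⟨(x - c x) / (2 * i), hv⟩ : ℝ) : ℂ) * Complex.I :=
  rfl

/-- The extension intertwines `c` and the complex conjugation. -/
theorem extEmb701_conj (c : C ≃+* C) (hcc : ∀ x, c (c x) = x) (i : C) (hi : i * i = -1)
    (hci : c i = -i) (h2 : (2 : C) ≠ 0) (ψ : fixSub701 c →+* ℝ) (x : C) :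
    extEmb701 c hcc i hi hci h2 ψ (c x) = starRingEnd ℂ (extEmb701 c hcc i hi hci h2 ψ x) := by
  have hu : (x + c x) / 2 ∈ fixSub701 c := by
    show c ((x + c x) / 2) = (x + c x) / 2
    rw [map_div₀, map_add, hcc, map_ofNat, add_comm]
  have hi0 : i ≠ 0 := by
    intro h0
    rw [h0, mul_zero] at hi
    have h1 : (1 : C) = 0 := by
      have := congrArg (fun z => -z) hi
      simpa using this.symm
    exact one_ne_zero h1
  have hv : (x - c x) / (2 * i) ∈ fixSub701 c := by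
    show c ((x - c x) / (2 * i)) = (x - c x) / (2 * i)
    rw [map_div₀, map_sub, hcc, map_mul, map_ofNat, hci]
    field_simp
    ring
  have hu' : (c x + c (c x)) / 2 ∈ fixSub701 c := by
    rw [hcc, add_comm]; exact hu
  have hv' : (c x - c (c x)) / (2 * i) ∈ fixSub701 c := by
    have : (c x - c (c x)) / (2 * i) = -((x - c x) / (2 * i)) := by
      rw [hcc]; ring
    rw [this]
    exact (fixSub701 c).neg_mem hv
  rw [extEmb701_apply c hcc i hi hci h2 ψ (c x) hu' hv',
    extEmb701_apply c hcc i hi hci h2 ψ x hu hv]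
  have e1 : (⟨(c x + c (c x)) / 2, hu'⟩ : fixSub701 c) = ⟨(x + c x) / 2, hu⟩ := by
    apply Subtype.ext
    show (c x + c (c x)) / 2 = (x + c x) / 2
    rw [hcc, add_comm]
  have e2 : (⟨(c x - c (c x)) / (2 * i), hv'⟩ : fixSub701 c) = -⟨(x - c x) / (2 * i), hv⟩ := by
    apply Subtype.ext
    show (c x - c (c x)) / (2 * i) = -((x - c x) / (2 * i))
    rw [hcc]; ring
  rw [e1, e2, map_neg, map_add, map_mul, Complex.conj_ofReal, Complex.conj_ofReal,
    Complex.conj_I]
  push_cast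
  ring

end Ext

section Qbar

local notation "Qb" => AlgebraicClosure ℚ
local notation "GQ" => (AlgebraicClosure ℚ ≃ₐ[ℚ] AlgebraicClosure ℚ)

/-- **Artin–Schreier, conjugation form**: an element `c ≠ 1`, `c * c = 1` of `Gal(ℚ̄/ℚ)` is the
complex conjugation of an embedding `φ : ℚ̄ → ℂ`. -/
theorem exists_embedding_conj701 (c : GQ) (h2 : c * c = 1) (hne : c ≠ 1) :
    ∃ φ : Qb →+* ℂ, ∀ x, φ (c x) = starRingEnd ℂ (φ x) := by
  have hcc : ∀ x, c.toRingEquiv (c.toRingEquiv x) = x := by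
    intro x
    have := congrArg (fun g : GQ => g x) h2
    simpa [AlgEquiv.mul_apply] using this
  have hmove : ∃ y, c.toRingEquiv y ≠ y := by
    by_contra hall
    refine hne (AlgEquiv.ext fun y => ?_)
    by_contra hy
    exact hall ⟨y, hy⟩
  have hint : ∀ x : Qb, ∃ p : Polynomial ℚ, p.Monic ∧
      Polynomial.eval₂ (Rat.castHom Qb) x p = 0 := by
    intro x
    have hx : IsIntegral ℚ x := ((AlgebraicClosure.isAlgebraic ℚ).isAlgebraic x).isIntegral
    refine ⟨minpoly ℚ x, minpoly.monic hx, ?_⟩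
    have hhom : Rat.castHom Qb = algebraMap ℚ Qb := Subsingleton.elim _ _
    rw [hhom]
    exact minpoly.aeval ℚ x
  obtain ⟨ψ⟩ := exists_ringHom_real701 hint c.toRingEquiv hcc hmove
  have h2' : (2 : Qb) ≠ 0 := two_ne_zero
  obtain ⟨i, hi, hci⟩ := exists_sqrt_neg_one701 h2' c.toRingEquiv hcc hmove
  exact ⟨extEmb701 c.toRingEquiv hcc i hi hci h2' ψ,
    fun x => extEmb701_conj c.toRingEquiv hcc i hi hci h2' ψ x⟩

/-- Every embedding `φ : ℚ̄ → ℂ` has a complex conjugation in `Gal(ℚ̄/ℚ)`. -/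
theorem exists_conj_of_embedding701 (φ : Qb →+* ℂ) :
    ∃ c : GQ, c * c = 1 ∧ c ≠ 1 ∧ ∀ x, φ (c x) = starRingEnd ℂ (φ x) := by
  let _ : Algebra Qb ℂ := φ.toAlgebra
  have _ : IsScalarTower ℚ Qb ℂ := IsScalarTower.of_algebraMap_eq' (Subsingleton.elim _ _)
  have _ : Algebra.IsAlgebraic ℚ Qb := AlgebraicClosure.isAlgebraic ℚ
  have _ : IsAlgClosure ℚ Qb := ⟨inferInstance, inferInstance⟩
  have _ : Normal ℚ Qb := IsAlgClosure.normal ℚ Qb
  let cc : ℂ ≃ₐ[ℚ] ℂ :=
    AlgEquiv.ofRingEquiv (f := starRingAut) fun x => map_ratCast (starRingEnd ℂ) x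
  have hcc : ∀ z : ℂ, cc z = starRingEnd ℂ z := fun z => rfl
  let c : GQ := AlgEquiv.restrictNormalHom (F := ℚ) (K₁ := ℂ) Qb cc
  have hc : ∀ x : Qb, φ (c x) = starRingEnd ℂ (φ x) := fun x =>
    AlgEquiv.restrictNormal_commutes cc Qb x
  have hinj : Function.Injective φ := φ.injective
  refine ⟨c, ?_, ?_, hc⟩
  · apply AlgEquiv.ext
    intro x
    apply hinj
    show φ (c (c x)) = φ x
    rw [hc, hc, Complex.conj_conj]
  · intro h1
    obtain ⟨i, hi⟩ := IsAlgClosed.exists_eq_mul_self (-1 : Qb)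
    have hφi : φ i * φ i = -1 := by
      rw [← map_mul, ← hi, map_neg, map_one]
    have hfix : starRingEnd ℂ (φ i) = φ i := by
      rw [← hc, h1]
      rfl
    -- a real number with square -1
    have hre : (φ i).im = 0 := by
      have := congrArg Complex.im hfix
      simp only [Complex.conj_im] at this
      linarith
    have hsq := congrArg Complex.re hφi
    simp only [Complex.mul_re, hre, mul_zero, sub_zero, Complex.neg_re, Complex.one_re] at hsq
    nlinarith [mul_self_nonneg (φ i).re]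

end Qbar

end Fermat.Agent.LT.CFT.H701
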