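import Fermat.Agent.LT.CFT.Spec
import Fermat.Agent.LT.CFT.H1.Spec
import Fermat.Agent.LT.CFT.H701.ConjEmb

/-!
# Row LT, tower CFT (helper701, OFF-MAIN): the two shapes of "totally complex" agree

`LT/CFT/Spec.lean` (helper53) states `RecTC2` / `CycSumC` with `NoOrderTwo U` (no element of
order two in `U`); `LT/CFT/H1/Spec.lean` (helper1, sub-tower REC2) states `ReciprocityTCSpec`
with `IsTC U` (no embedding `ℚ̄ → ℂ` is real on the fixed field of `U`).

* `isTC_of_noOrderTwo701 : IsOpenQ U → NoOrderTwo U → IsTC U`  (Galois correspondence),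
* `noOrderTwo_of_isTC701 : IsTC U → NoOrderTwo U`  (Artin–Schreier),
* `isTC_galOf701 : TotallyComplex K → IsTC (galOf j)`,
* `recTC2_of_reciprocityTC701 : H1.ReciprocityTCSpec I → CFT.RecTC2 I`  (the glue REC2 ⇒ tower).
-/

set_option autoImplicit false

noncomputable section

namespace Fermat.Agent.LT.CFT.H701

open NumberField Fermat.Agent.LT.CFT Fermat.Agent.S55.G.Rec

local notation "Qb" => AlgebraicClosure ℚ
local notation "GQ" => (AlgebraicClosure ℚ ≃ₐ[ℚ] AlgebraicClosure ℚ)

/-- Galois correspondence for open subgroups: an element of `G_ℚ` which fixes the fixed field of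
an open subgroup `U` lies in `U`. -/
theorem mem_of_fixes_fixed701 (U : Subgroup GQ) (hU : IsOpenQ U) (c : GQ)
    (h : ∀ a : Qb, (∀ u ∈ U, u a = a) → c a = a) : c ∈ U := by
  obtain ⟨F, hF, hFU⟩ := hU
  have _ : Algebra.IsAlgebraic ℚ Qb := AlgebraicClosure.isAlgebraic ℚ
  have _ : IsAlgClosure ℚ Qb := ⟨inferInstance, inferInstance⟩
  have _ : IsGalois ℚ Qb := inferInstance
  have hopenF : IsOpen (F.fixingSubgroup : Set GQ) := F.fixingSubgroup_isOpen
  have hopen : IsOpen (U : Set GQ) := Subgroup.isOpen_mono hFU hopenF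
  have hclosed : IsClosed (U : Set GQ) := Subgroup.isClosed_of_isOpen U hopen
  let Uc : ClosedSubgroup GQ := ⟨U, hclosed⟩
  have hgal : (IntermediateField.fixedField Uc.toSubgroup).fixingSubgroup = Uc.toSubgroup :=
    InfiniteGalois.fixingSubgroup_fixedField Uc
  have hc : c ∈ (IntermediateField.fixedField Uc.toSubgroup).fixingSubgroup := by
    rw [IntermediateField.mem_fixingSubgroup_iff]
    intro a ha
    apply h a
    intro u hu
    exact ha ⟨u, hu⟩
  rw [hgal] at hc
  exact hc

/-- Open subgroups without elements of order two have a totally complex fixed field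
(embedding shape). -/
theorem isTC_of_noOrderTwo701 (U : Subgroup GQ) (hU : IsOpenQ U) (h : NoOrderTwo U) :
    H1.IsTC U := by
  intro φ
  obtain ⟨c, hc2, hc1, hc⟩ := exists_conj_of_embedding701 φ
  by_contra hall
  apply hc1
  apply h c ?_ hc2
  apply mem_of_fixes_fixed701 U hU c
  intro a ha
  by_contra hca
  apply hall
  refine ⟨a, ha, ?_⟩
  intro heq
  apply hca
  apply φ.injective
  rw [hc, heq]

/-- **Artin–Schreier**: if the fixed field of `U` is totally complex (embedding shape), `U` has
no element of order two. -/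
theorem noOrderTwo_of_isTC701 (U : Subgroup GQ) (h : H1.IsTC U) : NoOrderTwo U := by
  intro c hcU hc2
  by_contra hne
  obtain ⟨φ, hφ⟩ := exists_embedding_conj701 c hc2 hne
  obtain ⟨a, ha, hne'⟩ := h φ
  apply hne'
  rw [← hφ, ha c hcU]

/-- A totally complex number field embedded in `ℚ̄`: embedding shape. -/
theorem isTC_galOf701 {K : Type} [Field K] [NumberField K] (j : K →+* Qb)
    (hK : TotallyComplex K) : H1.IsTC (galOf j) := by
  intro φ
  by_contra hall
  have hreal : ComplexEmbedding.IsReal (φ.comp j) := by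
    rw [ComplexEmbedding.isReal_iff]
    ext x
    show (starRingEnd ℂ) (φ (j x)) = φ (j x)
    by_contra hx
    exact hall ⟨j x, fun u hu => hu x, hx⟩
  exact (InfinitePlace.not_isReal_iff_isComplex.mpr (hK (InfinitePlace.mk (φ.comp j))))
    (InfinitePlace.isReal_mk_iff.mpr hreal)

/-- **GLUE REC2 ⇒ tower**: the deliverable of sub-tower REC2 (helper1) gives the middle Prop
`RecTC2` of the tower Spec (helper53). -/
theorem recTC2_of_reciprocityTC701 (I : LocalInvSystem) (h : H1.ReciprocityTCSpec I) :
    RecTC2 I :=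
  fun U hU hno x hx R hR => h U hU (isTC_of_noOrderTwo701 U hU hno) x hx R hR

end Fermat.Agent.LT.CFT.H701
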